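import Mathlib
import Fermat.Prelude.Def_FormalHecke_Eigensystem

set_option autoImplicit false

namespace Fermat.Agent.S49

/-- A formal Hecke eigensystem (relations at all primes) is multiplicative on coprime
arguments. -/
theorem isEigensystem_mul_of_coprime {R : Type*} [CommRing R] {e a : ℕ → R}
    (h : FormalHecke.IsEigensystem e a) :
    ∀ m n : ℕ, m.Coprime n → a (m * n) = a m * a n := by
  obtain ⟨h1, hrel⟩ := h
  intro m
  induction m using Nat.strong_induction_on with
  | _ m ih =>
    intro n hmn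
    rcases Nat.lt_or_ge m 2 with hm | hm
    · interval_cases m
      · have hn : n = 1 := by simpa using hmn
        subst hn
        simp [h1]
      · simp [h1]
    · obtain ⟨ℓ, hℓ, hℓm⟩ := Nat.exists_prime_and_dvd (show m ≠ 1 by omega)
      obtain ⟨m', rfl⟩ := hℓm
      have hℓpos : 0 < ℓ := hℓ.pos
      have hm'pos : 0 < m' := by
        rcases Nat.eq_zero_or_pos m' with h0 | h0
        · subst h0; simp at hm
        · exact h0
      have hm'lt : m' < ℓ * m' := by
        have := hℓ.two_le
        nlinarith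
      have hcop' : m'.Coprime n := Nat.Coprime.coprime_mul_left hmn
      have hℓn : ℓ.Coprime n := Nat.Coprime.coprime_mul_right hmn
      have hℓndvd : ¬ ℓ ∣ n := fun hd => by
        have := Nat.eq_one_of_dvd_coprimes hℓn (dvd_refl ℓ) hd
        exact hℓ.one_lt.ne' this
      have key := hrel ℓ hℓ (m' * n)
      have key' := hrel ℓ hℓ m'
      rw [← mul_assoc] at key
      by_cases hd : ℓ ∣ m'
      · obtain ⟨m'', rfl⟩ := hd
        have hm''pos : 0 < m'' := by
          rcases Nat.eq_zero_or_pos m'' with h0 | h0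
          · subst h0; simp at hm'pos
          · exact h0
        have hm''lt : m'' < ℓ * (ℓ * m'') := by
          have := hℓ.two_le
          nlinarith
        have hcop'' : m''.Coprime n := Nat.Coprime.coprime_mul_left hcop'
        have hd1 : ℓ ∣ ℓ * m'' * n := Dvd.intro _ (by rw [mul_assoc])
        have hd2 : ℓ ∣ ℓ * m'' := Dvd.intro _ rfl
        rw [if_pos hd1, show ℓ * m'' * n / ℓ = m'' * n by
          rw [mul_assoc, Nat.mul_div_cancel_left _ hℓpos], ih _ hm'lt n hcop',
          ih _ hm''lt n hcop''] at key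
        rw [if_pos hd2, Nat.mul_div_cancel_left _ hℓpos] at key'
        linear_combination key - a n * key'
      · have hd1 : ¬ ℓ ∣ m' * n := fun hdd =>
          (hℓ.dvd_mul.1 hdd).elim hd hℓndvd
        rw [if_neg hd1, ih _ hm'lt n hcop'] at key
        rw [if_neg hd] at key'
        linear_combination key - a n * key'

/-- A formal Hecke eigensystem satisfies the prime-power recursion. -/
theorem isEigensystem_prime_pow {R : Type*} [CommRing R] {e a : ℕ → R}
    (h : FormalHecke.IsEigensystem e a) (ℓ r : ℕ) (hℓ : ℓ.Prime) :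
    a (ℓ ^ (r + 2)) = a ℓ * a (ℓ ^ (r + 1)) - e ℓ * a (ℓ ^ r) := by
  have key := h.2 ℓ hℓ (ℓ ^ (r + 1))
  have hd : ℓ ∣ ℓ ^ (r + 1) := Dvd.intro_left (ℓ ^ r) (by rw [pow_succ])
  rw [if_pos hd, show ℓ * ℓ ^ (r + 1) = ℓ ^ (r + 2) by ring,
    show ℓ ^ (r + 1) / ℓ = ℓ ^ r by
      rw [pow_succ, Nat.mul_div_cancel _ hℓ.pos]] at key
  linear_combination key

theorem isRecursive_of_isEigensystem {R : Type*} [CommRing R] {e a : ℕ → R}
    (h : FormalHecke.IsEigensystem e a) : FormalHecke.IsRecursive e a :=
  ⟨h.1, isEigensystem_mul_of_coprime h, fun ℓ r hℓ => isEigensystem_prime_pow h ℓ r hℓ⟩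

end Fermat.Agent.S49
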