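import Mathlib

set_option autoImplicit false

namespace Fermat.Agent.S49

open Module

/-- A commuting family of endomorphisms stabilising a nonzero subspace of a finite-dimensional
space over an algebraically closed field has a common eigenvector in that subspace. -/
theorem exists_common_eigenvector {K V : Type*} [Field K] [IsAlgClosed K] [AddCommGroup V]
    [Module K V] [FiniteDimensional K V] (S : Set (Module.End K V))
    (hS : ∀ a ∈ S, ∀ b ∈ S, Commute a b) :
    ∀ (n : ℕ) (W : Submodule K V), finrank K W = n → W ≠ ⊥ → (∀ a ∈ S, ∀ w ∈ W, a w ∈ W) →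
      ∃ v ∈ W, v ≠ 0 ∧ ∀ a ∈ S, ∃ μ : K, a v = μ • v := by
  intro n
  induction n using Nat.strong_induction_on with
  | _ n ih =>
    intro W hn hW hWS
    by_cases h : ∀ a ∈ S, ∃ μ : K, ∀ w ∈ W, a w = μ • w
    · obtain ⟨v, hv, hv0⟩ := Submodule.exists_mem_ne_zero_of_ne_bot hW
      refine ⟨v, hv, hv0, fun a ha => ?_⟩
      obtain ⟨μ, hμ⟩ := h a ha
      exact ⟨μ, hμ v hv⟩
    · push Not at h
      obtain ⟨a, ha, hna⟩ := h
      have hmaps : ∀ w ∈ W, a w ∈ W := hWS a ha
      have : Nontrivial W := (Submodule.nontrivial_iff_ne_bot).2 hW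
      obtain ⟨μ, hμ⟩ := Module.End.exists_eigenvalue (a.restrict hmaps)
      obtain ⟨w, hw⟩ := hμ.exists_hasEigenvector
      have hw1 : a (w : V) = μ • (w : V) := by
        have := hw.apply_eq_smul
        have h2 := congrArg (Subtype.val) this
        simpa using h2
      have hw0 : (w : V) ≠ 0 := by
        intro h0
        exact hw.2 (Subtype.ext h0)
      set W' : Submodule K V := W ⊓ LinearMap.ker (a - μ • (1 : Module.End K V)) with hW'
      have hmemW' : ∀ x, x ∈ W' ↔ x ∈ W ∧ a x = μ • x := by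
        intro x
        simp [hW', Submodule.mem_inf, LinearMap.mem_ker, sub_eq_zero]
      have hwW' : (w : V) ∈ W' := (hmemW' _).2 ⟨w.2, hw1⟩
      have hW'bot : W' ≠ ⊥ := by
        intro hbot
        rw [hbot] at hwW'
        exact hw0 ((Submodule.mem_bot K).1 hwW')
      have hlt : W' < W := by
        refine lt_of_le_of_ne inf_le_left ?_
        intro heq
        obtain ⟨x, hxW, hx⟩ := hna μ
        rw [← heq] at hxW
        exact hx ((hmemW' x).1 hxW).2
      have hfr : finrank K W' < n := hn ▸ Submodule.finrank_lt_finrank_of_lt hlt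
      have hstab : ∀ b ∈ S, ∀ x ∈ W', b x ∈ W' := by
        intro b hb x hx
        rw [hmemW'] at hx ⊢
        refine ⟨hWS b hb x hx.1, ?_⟩
        have hc : a (b x) = b (a x) := by
          have := (hS a ha b hb).eq
          exact congrArg (fun f : Module.End K V => f x) this
        rw [hc, hx.2, map_smul]
      obtain ⟨v, hv, hv0, hv'⟩ := ih (finrank K W') hfr W' rfl hW'bot hstab
      exact ⟨v, ((hmemW' v).1 hv).1, hv0, hv'⟩


/-- Abstract Deligne–Serre lifting: a commutative ring `A`, finite over `ℤ`, acting faithfully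
on a finite-dimensional complex vector space, has for every proper ideal `I` a common eigenvector
whose eigencharacter takes values in the algebraic integers and maps `I` into a maximal ideal. -/
theorem exists_eigen_lift {V : Type*} [AddCommGroup V] [Module ℂ V] [FiniteDimensional ℂ V]
    {A : Type*} [CommRing A] [Module.Finite ℤ A] (ρ : A →+* Module.End ℂ V)
    (hρ : Function.Injective ρ) (I : Ideal A) (hI : I ≠ ⊤) :
    ∃ (v : V) (lam : A →+* integralClosure ℤ ℂ) (𝔪' : Ideal (integralClosure ℤ ℂ)),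
      v ≠ 0 ∧ 𝔪'.IsMaximal ∧ (∀ a, ρ a v = ((lam a : integralClosure ℤ ℂ) : ℂ) • v) ∧
        ∀ a ∈ I, lam a ∈ 𝔪' := by
  classical
  obtain ⟨M, hM, hIM⟩ := Ideal.exists_le_maximal I hI
  have hMprime : M.IsPrime := hM.isPrime
  obtain ⟨p, hp, hpM⟩ := Ideal.exists_minimalPrimes_le (bot_le : (⊥ : Ideal A) ≤ M)
  have hpprime : p.IsPrime := hp.1.1
  have hnoeth : IsNoetherianRing A :=
    isNoetherian_of_tower ℤ (isNoetherian_of_isNoetherianRing_of_finite ℤ A)
  have hann : Module.annihilator A A = ⊥ := by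
    rw [eq_bot_iff]
    intro a ha
    have := Module.mem_annihilator.1 ha (1 : A)
    simpa using this
  have hass : p ∈ associatedPrimes A A :=
    Module.associatedPrimes.minimalPrimes_annihilator_subset_associatedPrimes A A (hann ▸ hp)
  obtain ⟨-, t, ht⟩ := (isAssociatedPrime_iff).1 hass
  have hmem : ∀ a, a ∈ p ↔ a * t = 0 := by
    intro a
    rw [ht, Submodule.mem_colon_singleton]
    simp
  have ht0 : t ≠ 0 := by
    rintro rfl
    apply hpprime.ne_top
    rw [Ideal.eq_top_iff_one, hmem]
    simp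
  have hρt : ρ t ≠ 0 := fun h => ht0 (hρ (by simpa using h))
  obtain ⟨w, hw⟩ : ∃ w, ρ t w ≠ 0 := by
    by_contra hcon
    push Not at hcon
    exact hρt (LinearMap.ext hcon)
  let W : Submodule ℂ V := ⨅ a : p, LinearMap.ker (ρ a)
  have hWmem : ∀ x, x ∈ W ↔ ∀ a ∈ p, ρ a x = 0 := by
    intro x
    simp only [W, Submodule.mem_iInf, LinearMap.mem_ker, Subtype.forall]
  have hxW : ρ t w ∈ W := by
    rw [hWmem]
    intro a ha
    rw [← Module.End.mul_apply, ← map_mul, (hmem a).1 ha, map_zero]
    rfl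
  have hW : W ≠ ⊥ := fun h => hw ((Submodule.mem_bot ℂ).1 (h ▸ hxW))
  have hstab : ∀ b ∈ Set.range ρ, ∀ x ∈ W, b x ∈ W := by
    rintro _ ⟨b, rfl⟩ x hx
    rw [hWmem] at hx ⊢
    intro a ha
    rw [← Module.End.mul_apply, ← map_mul, mul_comm, map_mul, Module.End.mul_apply, hx a ha,
      map_zero]
  have hcomm : ∀ a ∈ Set.range ρ, ∀ b ∈ Set.range ρ, Commute a b := by
    rintro _ ⟨a, rfl⟩ _ ⟨b, rfl⟩
    exact (Commute.all a b).map ρ
  obtain ⟨g, hgW, hg0, hg⟩ := exists_common_eigenvector (Set.range ρ) hcomm _ W rfl hW hstab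
  choose μ hμ using fun a : A => hg (ρ a) ⟨a, rfl⟩
  have hinj : Function.Injective (fun c : ℂ => c • g) := smul_left_injective ℂ hg0
  let lam₀ : A →+* ℂ :=
    { toFun := μ
      map_one' := hinj (by simp [← hμ])
      map_mul' := fun a b => hinj (by
        simp only
        rw [← hμ, map_mul, Module.End.mul_apply, hμ b, map_smul, hμ a, smul_smul, mul_comm])
      map_zero' := hinj (by simp [← hμ])
      map_add' := fun a b => hinj (by
        simp only
        rw [← hμ, map_add, LinearMap.add_apply, hμ, hμ, add_smul]) }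
  have hint : ∀ a, lam₀ a ∈ integralClosure ℤ ℂ := fun a =>
    map_isIntegral_int lam₀ (Algebra.IsIntegral.isIntegral a)
  let lam : A →+* integralClosure ℤ ℂ := lam₀.codRestrict (integralClosure ℤ ℂ) hint
  have hlam : ∀ a, ((lam a : integralClosure ℤ ℂ) : ℂ) = μ a := fun a => rfl
  have hker_p : p ≤ RingHom.ker lam := by
    intro a ha
    rw [RingHom.mem_ker]
    apply Subtype.ext
    rw [hlam]
    apply hinj
    simp only [ZeroMemClass.coe_zero, zero_smul]
    rw [← hμ]
    exact (hWmem g).1 hgW a ha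
  have hker_le : RingHom.ker lam ≤ p := by
    by_contra hcon
    obtain ⟨x, hx, hxp⟩ := Set.not_subset.1 hcon
    have hlt := Ideal.comap_lt_comap_of_integral_mem_sdiff (R := ℤ) hker_p ⟨hx, hxp⟩
      (Algebra.IsIntegral.isIntegral x)
    have hbot : (RingHom.ker lam).comap (algebraMap ℤ A) = ⊥ := by
      ext n
      simp only [Ideal.mem_comap, RingHom.mem_ker, Ideal.mem_bot]
      constructor
      · intro h
        have h2 : ((lam (algebraMap ℤ A n) : integralClosure ℤ ℂ) : ℂ) = 0 := by rw [h]; rfl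
        simpa using h2
      · rintro rfl
        simp
    rw [hbot] at hlt
    exact not_lt_bot hlt
  have hlamint : lam.IsIntegral := by
    intro z
    obtain ⟨q, hq, hqz⟩ := Algebra.IsIntegral.isIntegral (R := ℤ) z
    refine ⟨q.map (Int.castRingHom A), hq.map _, ?_⟩
    rw [Polynomial.eval₂_map]
    have : lam.comp (Int.castRingHom A) = algebraMap ℤ (integralClosure ℤ ℂ) :=
      RingHom.ext_int _ _
    rw [this]
    exact hqz
  have hne : M.map lam ≠ ⊤ := by
    rw [Ne, Ideal.map_eq_top_iff_of_ker_le lam (hker_le.trans hpM) hlamint]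
    exact hM.ne_top
  obtain ⟨𝔪', h𝔪', hle⟩ := Ideal.exists_le_maximal _ hne
  exact ⟨g, lam, 𝔪', hg0, h𝔪', fun a => hμ a,
    fun a ha => hle (Ideal.mem_map_of_mem lam (hIM ha))⟩

end Fermat.Agent.S49
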