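import Mathlib
import Fermat.Prelude.Def_CuspForm_IntegralLattice
import Fermat.Prelude.Def_FormalHecke_Eigensystem
import Fermat.Prelude.Def_ModularForm_EisensteinChiNegThree
import Fermat.Prelude.Def_FLTPrelim_Modularity
import Fermat.Prelude.Def_CuspForm_HeckeAlgebra
import Fermat.Prelude.Def_CuspForm_IntegralStructure
import Fermat.Prelude.Thm_CuspForm_intLattice_fg
import Fermat.Prelude.Thm_CuspForm_mem_intLattice_of_mem_heckeAlgebra
import Fermat.Prelude.Thm_ModularFormClass_qCoeff_heckeT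
import Fermat.Prelude.Thm_ModularFormClass_qCoeff_heckeU
import Fermat.Prelude.Thm_CongruenceSubgroup_one_mem_strictPeriods_Gamma0
import Fermat.Agent.S49.LinAlg
import Fermat.Agent.S49.Formal

set_option autoImplicit false

noncomputable section

namespace Fermat.Agent.S49

open CuspForm CongruenceSubgroup ModularFormClass UpperHalfPlane

variable {N : ℕ} {k : ℤ}

theorem one_mem_periods (N : ℕ) :
    (1 : ℝ) ∈ (Subgroup.map (Matrix.SpecialLinearGroup.mapGL ℝ) (Gamma0 N)).strictPeriods :=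
  CongruenceSubgroup.one_mem_strictPeriods_Gamma0 N

theorem qCoeff_add (f g : CuspForm (Gamma0 N) k) (n : ℕ) :
    qCoeff ⇑(f + g) n = qCoeff ⇑f n + qCoeff ⇑g n := by
  simp only [qCoeff, FunLike.coe_add]
  rw [ModularForm.qExpansion_add one_pos (one_mem_periods N) f g, map_add]

theorem qCoeff_smul (c : ℂ) (f : CuspForm (Gamma0 N) k) (n : ℕ) :
    qCoeff ⇑(c • f) n = c * qCoeff ⇑f n := by
  have h1 : ⇑(c • f) = c • ⇑f := by
    ext z
    simp
  simp only [qCoeff, h1]
  rw [ModularForm.qExpansion_smul one_pos (one_mem_periods N) c f]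
  simp

theorem qCoeff_zsmul (c : ℤ) (f : CuspForm (Gamma0 N) k) (n : ℕ) :
    qCoeff ⇑(c • f) n = c * qCoeff ⇑f n := by
  have h1 : c • f = (c : ℂ) • f := by
    ext z
    simp
  rw [h1, qCoeff_smul]

theorem qCoeff_cusp_zero (f : CuspForm (Gamma0 N) k) : qCoeff ⇑f 0 = 0 :=
  CuspFormClass.qExpansion_coeff_zero f one_pos (one_mem_periods N)

theorem eq_zero_of_qCoeff (f : CuspForm (Gamma0 N) k) (h : ∀ n, qCoeff ⇑f n = 0) : f = 0 := by
  have h0 : qExpansion 1 (⇑f) = 0 := by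
    ext n
    simpa [qCoeff] using h n
  have hper := SlashInvariantFormClass.periodic_comp_ofComplex f (one_mem_periods N)
  have : Fact (IsCusp OnePoint.infty
      (Subgroup.map (Matrix.SpecialLinearGroup.mapGL ℝ) (Gamma0 N))) :=
    ⟨Subgroup.isCusp_of_mem_strictPeriods one_pos (one_mem_periods N)⟩
  have h1 := (UpperHalfPlane.qExpansion_eq_zero_iff one_pos hper (ModularFormClass.holo f)
    (ModularFormClass.bdd_at_infty f)).1 h0
  exact DFunLike.coe_injective (h1.trans (FunLike.coe_zero (F := CuspForm (Gamma0 N) k)).symm)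

theorem qCoeff_heckeTLin {p : ℕ} (hp : p.Prime) (hpN : ¬ p ∣ N) (f : CuspForm (Gamma0 N) 2)
    (n : ℕ) :
    qCoeff ⇑(CuspForm.heckeTLin 2 hp hpN f) n =
      qCoeff ⇑f (n * p) + if p ∣ n then (p : ℂ) * qCoeff ⇑f (n / p) else 0 := by
  rw [CuspForm.coe_heckeTLin_apply, ModularFormClass.qCoeff_heckeT f (one_mem_periods N) hp.ne_zero,
    ModularForm.coeffHeckeT_apply]
  norm_num

theorem qCoeff_heckeULin [NeZero N] {p : ℕ} (hp : p.Prime) (hpN : p ∣ N)
    (f : CuspForm (Gamma0 N) 2) (n : ℕ) :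
    qCoeff ⇑(CuspForm.heckeULin 2 hpN f) n = qCoeff ⇑f (n * p) := by
  rw [CuspForm.coe_heckeULin_apply, ModularFormClass.qCoeff_heckeU f (one_mem_periods N) hp.ne_zero,
    ModularForm.coeffHeckeU_apply]


/-- The `n`-th `q`-coefficient as a linear functional. -/
def qCoeffLin (N : ℕ) (k : ℤ) (n : ℕ) : CuspForm (Gamma0 N) k →ₗ[ℂ] ℂ where
  toFun f := qCoeff ⇑f n
  map_add' f g := qCoeff_add f g n
  map_smul' c f := by simpa using qCoeff_smul c f n

@[simp] theorem qCoeffLin_apply (n : ℕ) (f : CuspForm (Gamma0 N) k) :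
    qCoeffLin N k n f = qCoeff ⇑f n := rfl

theorem mem_intLattice_iff (f : CuspForm (Gamma0 N) k) :
    f ∈ CuspForm.intLattice N k ↔ ∀ n : ℕ, ∃ m : ℤ, qCoeff ⇑f n = (m : ℂ) :=
  P2MW.S_CuspForm_intLattice_fg.W3WsD.mem_intLattice_iff f

theorem qIntegralSet_subset (N : ℕ) :
    qIntegralSet N ⊆ (CuspForm.intLattice N 2 : Set (CuspForm (Gamma0 N) 2)) := by
  intro f hf
  rw [SetLike.mem_coe, mem_intLattice_iff]
  intro n
  obtain ⟨m, hm⟩ := Subring.mem_bot.1 (hf n)
  exact ⟨m, hm.symm⟩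

theorem span_finset_eq_top [NeZero N] (h : CuspForm.HasIntegralBasis N)
    {s : Finset (CuspForm (Gamma0 N) 2)}
    (hs : Submodule.span ℤ (s : Set (CuspForm (Gamma0 N) 2)) = CuspForm.intLattice N 2) :
    Submodule.span ℂ (s : Set (CuspForm (Gamma0 N) 2)) = ⊤ := by
  rw [eq_top_iff, ← (show Submodule.span ℂ (qIntegralSet N) = ⊤ from h)]
  apply Submodule.span_le.2
  intro f hf
  have h1 : f ∈ Submodule.span ℤ (s : Set (CuspForm (Gamma0 N) 2)) := by
    rw [hs]
    exact qIntegralSet_subset N hf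
  exact Submodule.span_subset_span ℤ ℂ _ h1

theorem finiteDimensional_of_hasIntegralBasis [NeZero N] (h : CuspForm.HasIntegralBasis N) :
    FiniteDimensional ℂ (CuspForm (Gamma0 N) 2) := by
  obtain ⟨s, hs⟩ := CuspForm.intLattice_fg N 2
  exact ⟨⟨s, span_finset_eq_top h hs⟩⟩

theorem heckeAlgebra_finite [NeZero N] (h : CuspForm.HasIntegralBasis N) :
    Module.Finite ℤ (CuspForm.heckeAlgebra N 2 (∅ : Set ℕ)) := by
  classical
  obtain ⟨s, hs⟩ := CuspForm.intLattice_fg N 2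
  have htop := span_finset_eq_top h hs
  have hLnoeth : IsNoetherian ℤ (CuspForm.intLattice N 2) :=
    isNoetherian_of_fg_of_noetherian _ ⟨s, hs⟩
  let Φ : CuspForm.heckeAlgebra N 2 (∅ : Set ℕ) →ₗ[ℤ] (s → CuspForm.intLattice N 2) :=
    { toFun := fun T i => ⟨(T : Module.End ℂ (CuspForm (Gamma0 N) 2)) (i : CuspForm (Gamma0 N) 2),
        CuspForm.mem_intLattice_of_mem_heckeAlgebra (by norm_num) T.2
          (hs ▸ Submodule.subset_span i.2)⟩
      map_add' := fun T T' => by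
        ext i
        simp
      map_smul' := fun c T => by
        ext i
        simp }
  have hΦ : Function.Injective Φ := by
    rw [injective_iff_map_eq_zero]
    intro T hT
    apply Subtype.ext
    have hker : Submodule.span ℂ (s : Set (CuspForm (Gamma0 N) 2)) ≤
        LinearMap.ker (T : Module.End ℂ (CuspForm (Gamma0 N) 2)) := by
      apply Submodule.span_le.2
      intro i hi
      have h1 := congrFun hT ⟨i, hi⟩
      have h2 := congrArg Subtype.val h1
      simpa [Φ] using h2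
    rw [htop] at hker
    exact LinearMap.ker_eq_top.1 (top_le_iff.1 hker)
  exact Module.Finite.of_injective Φ hΦ


/-- The weight-2 Hecke algebra of level `N` generated by all `T_ℓ`, `U_q`. -/
abbrev HA (N : ℕ) [NeZero N] : Type := ↥(CuspForm.heckeAlgebra N 2 (∅ : Set ℕ))

/-- The ideal of Hecke operators sending `f₀` into `3 L`. -/
def eigenIdeal [NeZero N] (f₀ : CuspForm (Gamma0 N) 2) : Ideal (HA N) where
  carrier := {T | ∃ g ∈ CuspForm.intLattice N 2,
    (T : Module.End ℂ (CuspForm (Gamma0 N) 2)) f₀ = (3 : ℂ) • g}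
  add_mem' := by
    rintro T T' ⟨g, hg, hT⟩ ⟨g', hg', hT'⟩
    refine ⟨g + g', add_mem hg hg', ?_⟩
    rw [Subalgebra.coe_add, LinearMap.add_apply, hT, hT', smul_add]
  zero_mem' := ⟨0, zero_mem _, by simp⟩
  smul_mem' := by
    rintro S T ⟨g, hg, hT⟩
    refine ⟨(S : Module.End ℂ (CuspForm (Gamma0 N) 2)) g,
      CuspForm.mem_intLattice_of_mem_heckeAlgebra (by norm_num) S.2 hg, ?_⟩
    rw [smul_eq_mul, Subalgebra.coe_mul, Module.End.mul_apply, hT, map_smul]

theorem mem_eigenIdeal [NeZero N] (f₀ : CuspForm (Gamma0 N) 2) (T : HA N) :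
    T ∈ eigenIdeal f₀ ↔ ∃ g ∈ CuspForm.intLattice N 2,
      (T : Module.End ℂ (CuspForm (Gamma0 N) 2)) f₀ = (3 : ℂ) • g := Iff.rfl

/-- A form all of whose `q`-coefficients are integers divisible by 3 lies in `3 L`. -/
theorem exists_three_smul (h : CuspForm (Gamma0 N) 2)
    (hh : ∀ n : ℕ, ∃ m : ℤ, qCoeff ⇑h n = ((3 * m : ℤ) : ℂ)) :
    ∃ g ∈ CuspForm.intLattice N 2, h = (3 : ℂ) • g := by
  refine ⟨(3 : ℂ)⁻¹ • h, ?_, ?_⟩
  · rw [mem_intLattice_iff]
    intro n
    obtain ⟨m, hm⟩ := hh n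
    refine ⟨m, ?_⟩
    rw [qCoeff_smul, hm]
    push_cast
    field_simp
  · rw [smul_smul, mul_inv_cancel₀ (by norm_num : (3 : ℂ) ≠ 0), one_smul]

theorem eigenIdeal_ne_top [NeZero N] (f₀ : CuspForm (Gamma0 N) 2) (af : ℕ → ℤ)
    (haf : ∀ n, (af n : ℂ) = qCoeff ⇑f₀ n) (h1 : ¬ (3 : ℤ) ∣ af 1) : eigenIdeal f₀ ≠ ⊤ := by
  intro htop
  have hone : (1 : HA N) ∈ eigenIdeal f₀ := by
    rw [htop]
    exact Submodule.mem_top
  obtain ⟨g, hg, hgeq⟩ := hone
  rw [Subalgebra.coe_one, Module.End.one_apply] at hgeq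
  obtain ⟨m, hm⟩ := (mem_intLattice_iff g).1 hg 1
  have h2 : (af 1 : ℂ) = ((3 * m : ℤ) : ℂ) := by
    rw [haf 1, hgeq, qCoeff_smul, hm]
    push_cast
    ring
  have h3 : af 1 = 3 * m := by exact_mod_cast h2
  exact h1 ⟨m, h3⟩

theorem natCast_three_mem_eigenIdeal [NeZero N] (f₀ : CuspForm (Gamma0 N) 2)
    (hf₀ : f₀ ∈ CuspForm.intLattice N 2) : ((3 : ℕ) : HA N) ∈ eigenIdeal f₀ := by
  refine ⟨f₀, hf₀, ?_⟩
  have : (((3 : ℕ) : HA N) : Module.End ℂ (CuspForm (Gamma0 N) 2)) =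
      ((3 : ℕ) : Module.End ℂ (CuspForm (Gamma0 N) 2)) := by
    norm_cast
  rw [this]
  ext z
  simp


theorem T_sub_mem_eigenIdeal [NeZero N] (f₀ : CuspForm (Gamma0 N) 2) (af a : ℕ → ℤ)
    (haf : ∀ n, (af n : ℂ) = qCoeff ⇑f₀ n) (hcong : ∀ n, (3 : ℤ) ∣ af n - a n)
    {ℓ : ℕ} (hℓ : ℓ.Prime) (hℓN : ¬ ℓ ∣ N) (c : ℤ)
    (hrel : ∀ n : ℕ, (3 : ℤ) ∣ a (n * ℓ) + (if ℓ ∣ n then (ℓ : ℤ) * a (n / ℓ) else 0) - c * a n) :
    CuspForm.heckeAlgebra.T hℓ hℓN (Set.notMem_empty ℓ) - algebraMap ℤ (HA N) c ∈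
      eigenIdeal f₀ := by
  rw [mem_eigenIdeal]
  have happ : ((CuspForm.heckeAlgebra.T hℓ hℓN (Set.notMem_empty ℓ) - algebraMap ℤ (HA N) c :
      HA N) : Module.End ℂ (CuspForm (Gamma0 N) 2)) f₀ =
      CuspForm.heckeTLin 2 hℓ hℓN f₀ - (c : ℂ) • f₀ := by
    rw [Subalgebra.coe_sub, Subalgebra.coe_algebraMap, LinearMap.sub_apply,
      CuspForm.heckeAlgebra.coe_T]
    congr 1
    ext z
    simp
  rw [happ]
  apply exists_three_smul
  intro n
  have hq : qCoeff ⇑(CuspForm.heckeTLin 2 hℓ hℓN f₀ - (c : ℂ) • f₀) n =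
      qCoeff ⇑(CuspForm.heckeTLin 2 hℓ hℓN f₀) n - (c : ℂ) * qCoeff ⇑f₀ n := by
    have := map_sub (qCoeffLin N 2 n) (CuspForm.heckeTLin 2 hℓ hℓN f₀) ((c : ℂ) • f₀)
    simpa [qCoeff_smul] using this
  have hdvd : (3 : ℤ) ∣ af (n * ℓ) + (if ℓ ∣ n then (ℓ : ℤ) * af (n / ℓ) else 0) - c * af n := by
    have e : af (n * ℓ) + (if ℓ ∣ n then (ℓ : ℤ) * af (n / ℓ) else 0) - c * af n =
        (a (n * ℓ) + (if ℓ ∣ n then (ℓ : ℤ) * a (n / ℓ) else 0) - c * a n) +
        ((af (n * ℓ) - a (n * ℓ)) + (if ℓ ∣ n then (ℓ : ℤ) * (af (n / ℓ) - a (n / ℓ)) else 0)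
          - c * (af n - a n)) := by
      split_ifs <;> ring
    rw [e]
    refine dvd_add (hrel n) (dvd_sub (dvd_add (hcong _) ?_) (Dvd.dvd.mul_left (hcong _) _))
    split_ifs
    · exact Dvd.dvd.mul_left (hcong _) _
    · exact dvd_zero _
  obtain ⟨m, hm⟩ := hdvd
  refine ⟨m, ?_⟩
  rw [hq, qCoeff_heckeTLin]
  simp only [← haf]
  rw [← hm]
  split_ifs
  · push_cast
    ring
  · push_cast
    ring

/-- A common eigenvector of all `T_ℓ`, `U_q` can be normalised to a normalised eigenform whose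
prime-indexed coefficients are the eigenvalues. -/
theorem exists_normalized_of_eigenvector [NeZero N] (g : CuspForm (Gamma0 N) 2) (hg : g ≠ 0)
    (μ : ℕ → ℂ)
    (hT : ∀ (ℓ : ℕ) (hℓ : ℓ.Prime) (hℓN : ¬ ℓ ∣ N), CuspForm.heckeTLin 2 hℓ hℓN g = μ ℓ • g)
    (hU : ∀ (q : ℕ) (_ : q.Prime) (hqN : q ∣ N), CuspForm.heckeULin 2 hqN g = μ q • g) :
    ∃ f : CuspForm (Gamma0 N) 2, f.IsNormalizedEigenform ∧
      ∀ ℓ : ℕ, ℓ.Prime → qCoeff ⇑f ℓ = μ ℓ := by
  classical
  set b : ℕ → ℂ := fun n => qCoeff ⇑g n with hb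
  set e : ℕ → ℂ := fun p => if p ∣ N then 0 else (p : ℂ) with he
  -- the uniform relation satisfied by the coefficients of `g`
  have hrel : ∀ p : ℕ, p.Prime → ∀ n : ℕ,
      b (n * p) + e p * (if p ∣ n then b (n / p) else 0) = μ p * b n := by
    intro p hp n
    by_cases hpN : p ∣ N
    · have h1 := congrArg (fun F : CuspForm (Gamma0 N) 2 => qCoeff ⇑F n) (hU p hp hpN)
      simp only [qCoeff_heckeULin hp hpN, qCoeff_smul] at h1
      simp only [he, hb, if_pos hpN, zero_mul, add_zero]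
      exact h1
    · have h1 := congrArg (fun F : CuspForm (Gamma0 N) 2 => qCoeff ⇑F n) (hT p hp hpN)
      simp only [qCoeff_heckeTLin hp hpN, qCoeff_smul] at h1
      simp only [he, hb, if_neg hpN]
      rw [← h1]
      split_ifs <;> ring
  -- `b 1 ≠ 0`
  have hb1 : b 1 ≠ 0 := by
    intro h0
    have hall : ∀ n : ℕ, b n = 0 := by
      intro n
      induction n using Nat.strong_induction_on with
      | _ n ih =>
        rcases Nat.lt_or_ge n 2 with hn | hn
        · interval_cases n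
          · exact qCoeff_cusp_zero g
          · exact h0
        · obtain ⟨p, hp, hpn⟩ := Nat.exists_prime_and_dvd (show n ≠ 1 by omega)
          obtain ⟨m, rfl⟩ := hpn
          have hmpos : 0 < m := by
            rcases Nat.eq_zero_or_pos m with h | h
            · subst h; simp at hn
            · exact h
          have hmlt : m < p * m := by
            have := hp.two_le
            nlinarith
          have key := hrel p hp m
          rw [ih m hmlt, mul_zero] at key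
          have h2 : (if p ∣ m then b (m / p) else 0) = 0 := by
            split_ifs with hd
            · exact ih _ (lt_of_le_of_lt (Nat.div_le_self m p) hmlt)
            · rfl
          rw [h2, mul_zero, add_zero, mul_comm] at key
          exact key
    exact hg (eq_zero_of_qCoeff g hall)
  refine ⟨(b 1)⁻¹ • g, ?_, ?_⟩
  · set c : ℕ → ℂ := fun n => qCoeff ⇑((b 1)⁻¹ • g) n with hc
    have hcb : ∀ n, c n = (b 1)⁻¹ * b n := fun n => qCoeff_smul _ g n
    have hc1 : c 1 = 1 := by rw [hcb, inv_mul_cancel₀ hb1]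
    have hμ : ∀ p : ℕ, p.Prime → μ p = c p := by
      intro p hp
      have key := hrel p hp 1
      rw [if_neg (fun h => hp.one_lt.ne' (Nat.dvd_one.1 h)), mul_zero, add_zero, one_mul] at key
      rw [hcb, key]
      field_simp
    have heig : FormalHecke.IsEigensystem e c := by
      refine ⟨hc1, fun p hp n => ?_⟩
      have key := hrel p hp n
      have h3 : (if p ∣ n then c (n / p) else 0) = (b 1)⁻¹ * (if p ∣ n then b (n / p) else 0) := by
        split_ifs
        · exact hcb _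
        · simp
      rw [← hμ p hp, h3, hcb (p * n), hcb n, mul_comm p n]
      linear_combination (b 1)⁻¹ * key
    obtain ⟨-, hmul, hpow⟩ := isRecursive_of_isEigensystem heig
    refine ⟨hc1, hmul, ?_, ?_⟩
    · intro p r hp hpN
      have := hpow p r hp
      rw [show e p = (p : ℂ) from if_neg hpN] at this
      exact this
    · intro p r hp hpN
      have := hpow p r hp
      rw [show e p = 0 from if_pos hpN, zero_mul, sub_zero] at this
      exact this
  · intro p hp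
    have key := hrel p hp 1
    rw [if_neg (fun h => hp.one_lt.ne' (Nat.dvd_one.1 h)), mul_zero, add_zero, one_mul] at key
    rw [qCoeff_smul]
    show (b 1)⁻¹ * b p = μ p
    rw [key]
    field_simp

end Fermat.Agent.S49
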